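import Fermat.Agent.Lib.H4.Moebius
import Fermat.Prelude.Thm_Subgroup_IsArithmetic_exists_nat_mem_strictPeriods_conj
import Fermat.Prelude.Thm_CongruenceSubgroup_one_mem_strictPeriods_Gamma0

/-!
# The period lattice of `S_{w+2}(Γ₀(N))`
-/

set_option autoImplicit false

open Complex Filter Function
open UpperHalfPlane hiding I
open scoped Manifold Topology Real MatrixGroups ModularForm
open Matrix.SpecialLinearGroup

namespace Fermat.Agent.H4

section General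

variable {Γ : Subgroup (GL (Fin 2) ℝ)} {k : ℤ}

/-- A cusp form for a group having `h` as a strict period is `Nice h`. -/
theorem nice_of_cuspForm {h : ℝ} (hh : 0 < h) (hΓ : h ∈ Γ.strictPeriods) (f : CuspForm Γ k) :
    Nice h f := by
  have : Fact (IsCusp OnePoint.infty Γ) := ⟨Γ.isCusp_of_mem_strictPeriods hh hΓ⟩
  exact ⟨SlashInvariantFormClass.periodic_comp_ofComplex f hΓ, CuspFormClass.holo f,
    CuspFormClass.zero_at_infty f⟩

/-- All `SL(2, ℤ)`-translates of cusp forms for an arithmetic group are `Nice` with a common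
period. -/
theorem exists_nice_translate [Γ.IsArithmetic] :
    ∃ M : ℕ, 0 < M ∧ ∀ (δ : SL(2, ℤ)) (f : CuspForm Γ k),
      Nice (M : ℝ) (⇑f ∣[k] (mapGL ℝ δ : GL (Fin 2) ℝ)) := by
  obtain ⟨M, hM, hper⟩ := Subgroup.IsArithmetic.exists_nat_mem_strictPeriods_conj Γ
  refine ⟨M, hM, fun δ f => ?_⟩
  have h1 := hper δ⁻¹
  rw [map_inv] at h1
  have hM' : (0 : ℝ) < M := by exact_mod_cast hM
  exact nice_of_cuspForm hM' h1 (CuspForm.translate f (mapGL ℝ δ : GL (Fin 2) ℝ))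

end General

section Gamma0

variable (N : ℕ) [NeZero N] (w : ℕ)

/-- The space of cusp forms of weight `w + 2` and level `Γ₀(N)`. -/
abbrev CF : Type :=
  CuspForm ((CongruenceSubgroup.Gamma0 N : Subgroup SL(2, ℤ)) : Subgroup (GL (Fin 2) ℝ))
    ((w : ℤ) + 2)

variable {N w}

theorem CF.nice (f : CF N w) : Nice 1 f :=
  nice_of_cuspForm one_pos (CongruenceSubgroup.one_mem_strictPeriods_Gamma0 N) f

theorem CF.hasChain (f : CF N w) (n : ℕ) : HasChain n f :=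
  (CF.nice f).hasChain one_pos n

theorem det_mapGL_pos (γ : SL(2, ℤ)) : 0 < ((mapGL ℝ γ : GL (Fin 2) ℝ).det.val : ℝ) := by simp

theorem CF.slash_eq (f : CF N w) {γ : SL(2, ℤ)} (hγ : γ ∈ CongruenceSubgroup.Gamma0 N) :
    ⇑f ∣[(w : ℤ) + 2] (mapGL ℝ γ : GL (Fin 2) ℝ) = ⇑f :=
  SlashInvariantFormClass.slash_action_eq f _ (Subgroup.mem_map_of_mem _ hγ)

variable (N w)

/-- The functional `f ↦ Ψ_w(f)(z; v)`. -/
noncomputable def psiLin (z : ℍ) (v : ℂ × ℂ) : CF N w →ₗ[ℂ] ℂ where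
  toFun f := Psi w f z v
  map_add' f g := by
    show PsiC w (⇑(f + g)) z v.1 v.2 = PsiC w f z v.1 v.2 + PsiC w g z v.1 v.2
    rw [FunLike.coe_add]
    exact PsiC_add w (CF.hasChain f _) (CF.hasChain g _) _ _ _
  map_smul' c f := by
    show PsiC w (⇑(c • f)) z v.1 v.2 = c • PsiC w f z v.1 v.2
    rw [FunLike.coe_smul]
    exact PsiC_smul w c (CF.hasChain f _) _ _ _

@[simp] theorem psiLin_apply (z : ℍ) (v : ℂ × ℂ) (f : CF N w) : psiLin N w z v f = Psi w f z v :=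
  rfl

/-- The period functional attached to `g` and `v`:
`f ↦ Ψ_f(g • i; g v) - Ψ_f(i; v)`. -/
noncomputable def lam (g : GL (Fin 2) ℝ) (v : ℂ × ℂ) : CF N w →ₗ[ℂ] ℂ :=
  psiLin N w (g • UpperHalfPlane.I) (actV g v) - psiLin N w UpperHalfPlane.I v

theorem lam_apply (g : GL (Fin 2) ℝ) (v : ℂ × ℂ) (f : CF N w) :
    lam N w g v f = Psi w f (g • UpperHalfPlane.I) (actV g v) - Psi w f UpperHalfPlane.I v := rfl

/-- The period lattice. -/
def Lam : Submodule ℤ (CF N w →ₗ[ℂ] ℂ) :=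
  Submodule.span ℤ {l | ∃ γ ∈ CongruenceSubgroup.Gamma0 N, ∃ m n : ℤ,
    l = lam N w (mapGL ℝ γ : GL (Fin 2) ℝ) ((m : ℂ), (n : ℂ))}

variable {N w}

theorem lam_mem_Lam {γ : SL(2, ℤ)} (hγ : γ ∈ CongruenceSubgroup.Gamma0 N) (m n : ℤ) :
    lam N w (mapGL ℝ γ : GL (Fin 2) ℝ) ((m : ℂ), (n : ℂ)) ∈ Lam N w :=
  Submodule.subset_span ⟨γ, hγ, m, n, rfl⟩

/-- The period functional does not depend on the base point. -/
theorem lam_indep {γ : SL(2, ℤ)} (hγ : γ ∈ CongruenceSubgroup.Gamma0 N) (v : ℂ × ℂ) (f : CF N w)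
    (z : ℍ) :
    Psi w f ((mapGL ℝ γ : GL (Fin 2) ℝ) • z) (actV (mapGL ℝ γ) v) - Psi w f z v
      = lam N w (mapGL ℝ γ : GL (Fin 2) ℝ) v f :=
  Psi_smul_sub_const w (CF.hasChain f _) (CF.hasChain f _) _ (det_mapGL_pos γ) (CF.slash_eq f hγ)
    v z UpperHalfPlane.I

/-- The cocycle relation. -/
theorem lam_mul {γ δ : SL(2, ℤ)} (hγ : γ ∈ CongruenceSubgroup.Gamma0 N) (v : ℂ × ℂ) :
    lam N w (mapGL ℝ (γ * δ) : GL (Fin 2) ℝ) v
      = lam N w (mapGL ℝ γ : GL (Fin 2) ℝ) (actV (mapGL ℝ δ) v)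
        + lam N w (mapGL ℝ δ : GL (Fin 2) ℝ) v := by
  ext f
  rw [LinearMap.add_apply, ← lam_indep hγ (actV (mapGL ℝ δ) v) f
    ((mapGL ℝ δ : GL (Fin 2) ℝ) • UpperHalfPlane.I), lam_apply, lam_apply, map_mul, actV_mul,
    mul_smul]
  ring

theorem lam_one (v : ℂ × ℂ) : lam N w (1 : GL (Fin 2) ℝ) v = 0 := by
  ext f
  rw [lam_apply, one_smul, actV_one, sub_self]
  rfl

end Gamma0

end Fermat.Agent.H4
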