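import Fermat.Agent.Lib.H4.Cusp

/-!
# The period lattice is finitely generated
-/

set_option autoImplicit false

open Complex Filter Function
open UpperHalfPlane hiding I
open scoped Manifold Topology Real MatrixGroups ModularForm
open Matrix.SpecialLinearGroup

namespace Fermat.Agent.H4

theorem gamma0_fg (N : ℕ) [NeZero N] : Group.FG ↥(CongruenceSubgroup.Gamma0 N) := by
  have : Group.FG SL(2, ℤ) := by
    rw [Group.fg_iff]
    exact ⟨{ModularGroup.S, ModularGroup.T}, SpecialLinearGroup.SL2Z_generators, by simp⟩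
  exact Subgroup.fg_of_index_ne_zero _

/-- Vectors with integer coordinates. -/
def IntVec (v : ℂ × ℂ) : Prop := ∃ m n : ℤ, v = ((m : ℂ), (n : ℂ))

theorem IntVec.actV_mapGL (γ : SL(2, ℤ)) {v : ℂ × ℂ} (hv : IntVec v) :
    IntVec (actV (mapGL ℝ γ : GL (Fin 2) ℝ) v) := by
  obtain ⟨m, n, rfl⟩ := hv
  refine ⟨γ 0 0 * m + γ 0 1 * n, γ 1 0 * m + γ 1 1 * n, ?_⟩
  simp [actV]

section

variable (N : ℕ) [NeZero N] (w : ℕ)

/-- The functional `f ↦ prim^[s] f z`. -/
noncomputable def primLin (s : ℕ) (z : ℍ) : CF N w →ₗ[ℂ] ℂ where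
  toFun f := prim^[s] (⇑f) z
  map_add' f g := by
    rw [FunLike.coe_add, (CF.hasChain f s).iterate_add (CF.hasChain g s) s le_rfl]
    rfl
  map_smul' c f := by
    rw [FunLike.coe_smul, (CF.hasChain f s).iterate_smul c s le_rfl]
    rfl

@[simp] theorem primLin_apply (s : ℕ) (z : ℍ) (f : CF N w) :
    primLin N w s z f = prim^[s] (⇑f) z := rfl

/-- The finitely many functionals spanning all `psiLin z (m, n)`. -/
noncomputable def basisAt (z : ℍ) : Set (CF N w →ₗ[ℂ] ℂ) :=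
  Set.range fun p : Fin (w + 1) × Fin (w + 1) =>
    ((z : ℂ) ^ (p.1 : ℕ)) • primLin N w ((p.2 : ℕ) + 1) z

theorem basisAt_finite (z : ℍ) : (basisAt N w z).Finite := Set.finite_range _

variable {N w}

theorem psiC_int_expand (f : ℍ → ℂ) (z : ℍ) (m n : ℤ) :
    PsiC w f (z : ℂ) (m : ℂ) (n : ℂ) = ∑ s ∈ Finset.range (w + 1), ∑ i ∈ Finset.range (w - s + 1),
      (((w.descFactorial s : ℤ) * n ^ s * ((-n) ^ i * m ^ (w - s - i) * ((w - s).choose i : ℤ)) : ℤ)
        : ℂ) * ((z : ℂ) ^ i * prim^[s + 1] f z) := by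
  rw [PsiC_eq_sum]
  refine Finset.sum_congr rfl fun s _ => ?_
  have e : ((m : ℂ) - (z : ℂ) * (n : ℂ)) ^ (w - s)
      = ∑ i ∈ Finset.range (w - s + 1),
        ((z : ℂ) ^ i * (-(n : ℂ)) ^ i) * (m : ℂ) ^ (w - s - i) * ((w - s).choose i : ℂ) := by
    have e0 : (m : ℂ) - (z : ℂ) * (n : ℂ) = (z : ℂ) * (-(n : ℂ)) + (m : ℂ) := by ring
    rw [e0, add_pow]
    refine Finset.sum_congr rfl fun i _ => ?_
    rw [mul_pow]
  rw [e, Finset.mul_sum, ofComplex_apply]
  refine Finset.sum_congr rfl fun i _ => ?_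
  push_cast
  ring

theorem psiLin_int_mem (z : ℍ) {v : ℂ × ℂ} (hv : IntVec v) :
    psiLin N w z v ∈ Submodule.span ℤ (basisAt N w z) := by
  obtain ⟨m, n, rfl⟩ := hv
  have h : psiLin N w z ((m : ℂ), (n : ℂ)) = ∑ s ∈ Finset.range (w + 1),
      ∑ i ∈ Finset.range (w - s + 1),
        ((w.descFactorial s : ℤ) * n ^ s * ((-n) ^ i * m ^ (w - s - i) * ((w - s).choose i : ℤ)))
          • (((z : ℂ) ^ i) • primLin N w (s + 1) z) := by
    ext f
    rw [psiLin_apply, Psi, psiC_int_expand]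
    simp only [LinearMap.coe_sum, Finset.sum_apply, LinearMap.smul_apply, primLin_apply,
      smul_eq_mul, zsmul_eq_mul]
  rw [h]
  refine Submodule.sum_mem _ fun s hs => Submodule.sum_mem _ fun i hi => ?_
  refine Submodule.smul_mem _ _ (Submodule.subset_span ?_)
  have hs' : s < w + 1 := Finset.mem_range.mp hs
  have hi' : i < w + 1 := by have := Finset.mem_range.mp hi; omega
  exact ⟨(⟨i, hi'⟩, ⟨s, hs'⟩), rfl⟩

theorem lam_int_mem (γ : SL(2, ℤ)) {v : ℂ × ℂ} (hv : IntVec v) :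
    lam N w (mapGL ℝ γ : GL (Fin 2) ℝ) v ∈ Submodule.span ℤ
      (basisAt N w ((mapGL ℝ γ : GL (Fin 2) ℝ) • UpperHalfPlane.I) ∪ basisAt N w UpperHalfPlane.I) := by
  unfold lam
  refine Submodule.sub_mem _ ?_ ?_
  · exact Submodule.span_mono Set.subset_union_left (psiLin_int_mem _ (hv.actV_mapGL γ))
  · exact Submodule.span_mono Set.subset_union_right (psiLin_int_mem _ hv)

variable (N w)

/-- The period lattice is a finitely generated abelian group. -/
theorem Lam_fg : (Lam N w).FG := by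
  obtain ⟨S, hS, hSfin⟩ := Group.fg_iff.mp (gamma0_fg N)
  set B : Set (CF N w →ₗ[ℂ] ℂ) :=
    (⋃ s ∈ S, basisAt N w ((mapGL ℝ (s : SL(2, ℤ)) : GL (Fin 2) ℝ) • UpperHalfPlane.I))
      ∪ basisAt N w UpperHalfPlane.I with hB
  have hBfin : B.Finite :=
    (hSfin.biUnion fun s _ => basisAt_finite N w _).union (basisAt_finite N w _)
  have hT : (Submodule.span ℤ B).FG := Submodule.fg_span hBfin
  have key : ∀ x : ↥(CongruenceSubgroup.Gamma0 N), ∀ v : ℂ × ℂ, IntVec v →
      lam N w (mapGL ℝ (x : SL(2, ℤ)) : GL (Fin 2) ℝ) v ∈ Submodule.span ℤ B := by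
    intro x
    have hx : x ∈ Subgroup.closure S := by rw [hS]; exact Subgroup.mem_top x
    induction hx using Subgroup.closure_induction with
    | mem y hy =>
      intro v hv
      refine Submodule.span_mono ?_ (lam_int_mem (y : SL(2, ℤ)) hv)
      refine Set.union_subset_union_left _ ?_
      exact Set.subset_biUnion_of_mem (u := fun s : ↥(CongruenceSubgroup.Gamma0 N) =>
        basisAt N w ((mapGL ℝ (s : SL(2, ℤ)) : GL (Fin 2) ℝ) • UpperHalfPlane.I)) hy
    | one =>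
      intro v _
      rw [OneMemClass.coe_one, map_one, lam_one]
      exact Submodule.zero_mem _
    | mul y y' _ _ ihy ihy' =>
      intro v hv
      rw [Subgroup.coe_mul, lam_mul y.2]
      exact Submodule.add_mem _ (ihy _ (hv.actV_mapGL _)) (ihy' _ hv)
    | inv y _ ihy =>
      intro v hv
      have h1 := lam_mul (N := N) (w := w) y.2 (δ := ((y : SL(2, ℤ)))⁻¹) v
      rw [mul_inv_cancel, map_one, lam_one] at h1
      have h2 : lam N w (mapGL ℝ ((y : SL(2, ℤ)))⁻¹ : GL (Fin 2) ℝ) v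
          = - lam N w (mapGL ℝ (y : SL(2, ℤ)) : GL (Fin 2) ℝ)
            (actV (mapGL ℝ ((y : SL(2, ℤ)))⁻¹ : GL (Fin 2) ℝ) v) := by
        exact eq_neg_of_add_eq_zero_right h1.symm
      rw [Subgroup.coe_inv, h2]
      exact Submodule.neg_mem _ (ihy _ (hv.actV_mapGL _))
  refine hT.of_le (Submodule.span_le.mpr ?_)
  rintro l ⟨γ, hγ, m, n, rfl⟩
  exact key ⟨γ, hγ⟩ _ ⟨m, n, rfl⟩

end

end Fermat.Agent.H4
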