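import Fermat.Agent.Lib.H4.FG

/-!
# Stability of the period lattice under operators given by upper triangular coset sums
-/

set_option autoImplicit false

open Complex Filter Function
open UpperHalfPlane hiding I
open scoped Manifold Topology MatrixGroups ModularForm
open Matrix.SpecialLinearGroup

namespace Fermat.Agent.H4

theorem Psi_slash_UT {g : GL (Fin 2) ℝ} (h10 : g 1 0 = 0) (h00 : 0 < g 0 0) (h11 : 0 < g 1 1)
    (w : ℕ) {f : ℍ → ℂ} (hf : HasChain (w + 1) f) (z : ℍ) (v : ℂ × ℂ) :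
    Psi w (f ∣[(w : ℤ) + 2] g) z v = Psi w f (g • z) (actV g v) := by
  unfold Psi actV
  rw [PsiC_slash_UT g h10 h00 h11 w hf z v.1 v.2]
  simp [h10]

theorem Psi_finset_sum (w : ℕ) {ι : Type*} (s : Finset ι) (F : ι → ℍ → ℂ)
    (h0 : HasChain (w + 1) (0 : ℍ → ℂ)) (hF : ∀ i ∈ s, HasChain (w + 1) (F i)) (z : ℍ)
    (v : ℂ × ℂ) :
    HasChain (w + 1) (∑ i ∈ s, F i) ∧ Psi w (∑ i ∈ s, F i) z v = ∑ i ∈ s, Psi w (F i) z v := by
  classical
  induction s using Finset.induction_on with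
  | empty =>
    refine ⟨by simpa using h0, ?_⟩
    have := PsiC_smul w 0 h0 (z : ℂ) v.1 v.2
    rw [zero_smul, zero_mul] at this
    simpa [Psi] using this
  | insert a s ha ih =>
    have ih' := ih fun i hi => hF i (Finset.mem_insert_of_mem hi)
    have ha' := hF a (Finset.mem_insert_self a s)
    rw [Finset.sum_insert ha, Finset.sum_insert ha]
    refine ⟨ha'.add ih'.1, ?_⟩
    rw [← ih'.2]
    exact PsiC_add w ha' ih'.1 _ _ _

section

variable {N : ℕ} [NeZero N] {w : ℕ}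

theorem hasChain_zero (N : ℕ) [NeZero N] (w n : ℕ) : HasChain n (0 : ℍ → ℂ) := by
  have := CF.hasChain (0 : CF N w) n
  rwa [FunLike.coe_zero] at this

theorem lam_comp_of_coset {ι : Type*} [Fintype ι] (α : ι → GL (Fin 2) ℝ)
    (h10 : ∀ x, α x 1 0 = 0) (h00 : ∀ x, 0 < α x 0 0) (h11 : ∀ x, 0 < α x 1 1)
    (T : CF N w →ₗ[ℂ] CF N w)
    (hT : ∀ f : CF N w, ⇑(T f) = ∑ x, ⇑f ∣[(w : ℤ) + 2] α x)
    {γ : SL(2, ℤ)} (e : Equiv.Perm ι) (γ' : ι → SL(2, ℤ))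
    (hγ' : ∀ x, γ' x ∈ CongruenceSubgroup.Gamma0 N)
    (hmul : ∀ x, α x * (mapGL ℝ γ : GL (Fin 2) ℝ) = (mapGL ℝ (γ' x) : GL (Fin 2) ℝ) * α (e x))
    (v : ℂ × ℂ) :
    lam N w (mapGL ℝ γ : GL (Fin 2) ℝ) v ∘ₗ T
      = ∑ x, lam N w (mapGL ℝ (γ' x) : GL (Fin 2) ℝ) (actV (α (e x)) v) := by
  ext f
  have hPsi : ∀ (z : ℍ) (u : ℂ × ℂ),
      Psi w (⇑(T f)) z u = ∑ x, Psi w f (α x • z) (actV (α x) u) := by
    intro z u
    rw [hT f, (Psi_finset_sum w Finset.univ (fun x => ⇑f ∣[(w : ℤ) + 2] α x)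
      (hasChain_zero N w _)
      (fun x _ => (CF.hasChain f _).slash_UT (α x) (h10 x) (h00 x) (h11 x) _ _) z u).2]
    refine Finset.sum_congr rfl fun x _ => ?_
    exact Psi_slash_UT (h10 x) (h00 x) (h11 x) w (CF.hasChain f _) z u
  rw [LinearMap.comp_apply, lam_apply, hPsi, hPsi, LinearMap.sum_apply, ← Finset.sum_sub_distrib]
  have key : ∀ x, Psi w f (α x • (mapGL ℝ γ : GL (Fin 2) ℝ) • UpperHalfPlane.I)
        (actV (α x) (actV (mapGL ℝ γ : GL (Fin 2) ℝ) v))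
      = lam N w (mapGL ℝ (γ' x) : GL (Fin 2) ℝ) (actV (α (e x)) v) f
        + Psi w f (α (e x) • UpperHalfPlane.I) (actV (α (e x)) v) := by
    intro x
    rw [← mul_smul, ← actV_mul, hmul x, mul_smul, actV_mul,
      ← lam_indep (hγ' x) (actV (α (e x)) v) f (α (e x) • UpperHalfPlane.I)]
    ring
  simp_rw [key]
  rw [Finset.sum_sub_distrib, Finset.sum_add_distrib,
    Equiv.sum_comp e (fun x => Psi w f (α x • UpperHalfPlane.I) (actV (α x) v))]
  ring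

/-- Generic Hecke stability of the period lattice. -/
theorem Lam_comp_of_coset {ι : Type*} [Fintype ι] (α : ι → GL (Fin 2) ℝ)
    (h10 : ∀ x, α x 1 0 = 0) (h00 : ∀ x, 0 < α x 0 0) (h11 : ∀ x, 0 < α x 1 1)
    (hint : ∀ x v, IntVec v → IntVec (actV (α x) v))
    (T : CF N w →ₗ[ℂ] CF N w)
    (hT : ∀ f : CF N w, ⇑(T f) = ∑ x, ⇑f ∣[(w : ℤ) + 2] α x)
    (hcoset : ∀ γ ∈ CongruenceSubgroup.Gamma0 N, ∃ e : Equiv.Perm ι, ∀ x,
      ∃ γ' ∈ CongruenceSubgroup.Gamma0 N,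
        α x * (mapGL ℝ γ : GL (Fin 2) ℝ) = (mapGL ℝ γ' : GL (Fin 2) ℝ) * α (e x)) :
    ∀ l ∈ Lam N w, l ∘ₗ T ∈ Lam N w := by
  intro l hl
  induction hl using Submodule.span_induction with
  | mem l hl =>
    obtain ⟨γ, hγ, m, n, rfl⟩ := hl
    obtain ⟨e, he⟩ := hcoset γ hγ
    choose γ' hγ' hmul using he
    rw [lam_comp_of_coset α h10 h00 h11 T hT e γ' hγ' hmul]
    refine Submodule.sum_mem _ fun x _ => ?_
    obtain ⟨m', n', hv⟩ := hint (e x) _ ⟨m, n, rfl⟩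
    rw [hv]
    exact lam_mem_Lam (hγ' x) m' n'
  | zero =>
    rw [LinearMap.zero_comp]
    exact Submodule.zero_mem _
  | add l l' _ _ h h' =>
    rw [LinearMap.add_comp]
    exact Submodule.add_mem _ h h'
  | smul c l _ h =>
    have e : (c • l) ∘ₗ T = c • (l ∘ₗ T) := by
      ext f
      simp
    rw [e]
    exact Submodule.smul_mem _ c h

end

end Fermat.Agent.H4
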