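import Fermat.Agent.Lib.H4.HeckeGen
import Fermat.Prelude.Def_CuspForm_HeckeAlgebra

/-!
# The period lattice is stable under the Hecke operators `T_ℓ` and `U_q`
-/

set_option autoImplicit false

open Complex Filter Function
open UpperHalfPlane hiding I
open scoped Manifold Topology MatrixGroups ModularForm
open Matrix.SpecialLinearGroup
open ModularForm
open P2MW.S_ModularForm_heckeU_slash_eq_self_of_mem_Gamma0.ModularForm.HeckeSlashInvariance

namespace Fermat.Agent.H4

theorem intVec_actV_of_int {g : GL (Fin 2) ℝ} (a b c d : ℤ) (h00 : g 0 0 = a) (h01 : g 0 1 = b)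
    (h10 : g 1 0 = c) (h11 : g 1 1 = d) {v : ℂ × ℂ} (hv : IntVec v) : IntVec (actV g v) := by
  obtain ⟨m, n, rfl⟩ := hv
  refine ⟨a * m + b * n, c * m + d * n, ?_⟩
  simp [actV, h00, h01, h10, h11]

section

variable {N : ℕ} [NeZero N] {w : ℕ}

/-- The period lattice is stable under `U_q`, `q ∣ N`. -/
theorem Lam_heckeU {q : ℕ} (hqN : q ∣ N) :
    ∀ l ∈ Lam N w, l ∘ₗ CuspForm.heckeULin ((w : ℤ) + 2) hqN ∈ Lam N w := by
  have hq0 : q ≠ 0 := fun h => NeZero.ne N (by subst h; exact zero_dvd_iff.mp hqN)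
  have : NeZero q := ⟨hq0⟩
  have hqpos : (0 : ℝ) < q := by exact_mod_cast Nat.pos_of_ne_zero hq0
  refine Lam_comp_of_coset (ι := ZMod q) (fun x => heckeMatrix q x.val) ?_ ?_ ?_ ?_ _ ?_ ?_
  · intro x
    simp [val_heckeMatrix hq0]
  · intro x
    simp [val_heckeMatrix hq0]
  · intro x
    simpa [val_heckeMatrix hq0] using hqpos
  · intro x v hv
    exact intVec_actV_of_int 1 x.val 0 q (by simp [val_heckeMatrix hq0])
      (by simp [val_heckeMatrix hq0]) (by simp [val_heckeMatrix hq0])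
      (by simp [val_heckeMatrix hq0]) hv
  · intro f
    rw [CuspForm.coe_heckeULin_apply, heckeU_eq_sum_zmod]
  · intro γ hγ
    have hcN : (N : ℤ) ∣ γ 1 0 :=
      (ZMod.intCast_zmod_eq_zero_iff_dvd _ _).mp (CongruenceSubgroup.Gamma0_mem.mp hγ)
    have hc : (q : ℤ) ∣ γ 1 0 := (Int.natCast_dvd_natCast.mpr hqN).trans hcN
    refine ⟨affinePerm γ ((ZMod.intCast_zmod_eq_zero_iff_dvd _ _).mpr hc), fun x => ?_⟩
    obtain ⟨g', hg', hmul⟩ := heckeMatrix_mul_of_dvd γ hc x
    refine ⟨g', ?_, hmul⟩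
    rw [CongruenceSubgroup.Gamma0_mem, hg']
    push_cast
    rw [CongruenceSubgroup.Gamma0_mem.mp hγ, mul_zero]

/-- The period lattice is stable under `T_p`, `p ∤ N`. -/
theorem Lam_heckeT {p : ℕ} (hp : p.Prime) (hpN : ¬ p ∣ N) :
    ∀ l ∈ Lam N w, l ∘ₗ CuspForm.heckeTLin ((w : ℤ) + 2) hp hpN ∈ Lam N w := by
  have : Fact p.Prime := ⟨hp⟩
  have hp0 : p ≠ 0 := hp.ne_zero
  have : NeZero p := ⟨hp0⟩
  have hppos : (0 : ℝ) < p := by exact_mod_cast Nat.pos_of_ne_zero hp0
  refine Lam_comp_of_coset (ι := OnePoint (ZMod p)) (heckeRep p) ?_ ?_ ?_ ?_ _ ?_ ?_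
  · intro x
    induction x using OnePoint.rec with
    | infty => simp [heckeRep_infty, val_heckeDiagMatrix hp0]
    | coe j => simp [heckeRep_coe, val_heckeMatrix hp0]
  · intro x
    induction x using OnePoint.rec with
    | infty => simpa [heckeRep_infty, val_heckeDiagMatrix hp0] using hppos
    | coe j => simp [heckeRep_coe, val_heckeMatrix hp0]
  · intro x
    induction x using OnePoint.rec with
    | infty => simp [heckeRep_infty, val_heckeDiagMatrix hp0]
    | coe j => simpa [heckeRep_coe, val_heckeMatrix hp0] using hppos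
  · intro x v hv
    induction x using OnePoint.rec with
    | infty =>
      exact intVec_actV_of_int p 0 0 1 (by simp [heckeRep_infty, val_heckeDiagMatrix hp0])
        (by simp [heckeRep_infty, val_heckeDiagMatrix hp0])
        (by simp [heckeRep_infty, val_heckeDiagMatrix hp0])
        (by simp [heckeRep_infty, val_heckeDiagMatrix hp0]) hv
    | coe j =>
      exact intVec_actV_of_int 1 j.val 0 p (by simp [heckeRep_coe, val_heckeMatrix hp0])
        (by simp [heckeRep_coe, val_heckeMatrix hp0]) (by simp [heckeRep_coe, val_heckeMatrix hp0])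
        (by simp [heckeRep_coe, val_heckeMatrix hp0]) hv
  · intro f
    rw [CuspForm.coe_heckeTLin_apply, heckeT_eq_sum_onePoint]
  · intro γ hγ
    have hcN : (N : ℤ) ∣ γ 1 0 :=
      (ZMod.intCast_zmod_eq_zero_iff_dvd _ _).mp (CongruenceSubgroup.Gamma0_mem.mp hγ)
    refine ⟨MulAction.toPerm (redMatrix p γ), fun x => ?_⟩
    obtain ⟨g', hg', hmul⟩ := heckeRep_mul hpN γ hcN x
    exact ⟨g', CongruenceSubgroup.Gamma0_mem.mpr ((ZMod.intCast_zmod_eq_zero_iff_dvd _ _).mpr hg'),
      hmul⟩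

end

end Fermat.Agent.H4
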