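import Fermat.Agent.Lib.H4.Psi

/-!
# Behaviour of `Ψ` under Möbius transformations
-/

set_option autoImplicit false

open Complex Filter Function
open UpperHalfPlane hiding I
open scoped Manifold Topology Real MatrixGroups ModularForm

namespace Fermat.Agent.H4

theorem det_eq_of_GL (g : GL (Fin 2) ℝ) :
    (g.det.val : ℝ) = g 0 0 * g 1 1 - g 0 1 * g 1 0 := by
  rw [Matrix.GeneralLinearGroup.val_det_apply, Matrix.det_fin_two]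

theorem coe_smul_ofComplex_eventuallyEq (g : GL (Fin 2) ℝ) (hg : 0 < g.det.val) (z : ℍ) :
    (fun u : ℂ => ((g • ofComplex u : ℍ) : ℂ)) =ᶠ[𝓝 (z : ℂ)]
      fun u : ℂ => ((g 0 0 : ℝ) * u + (g 0 1 : ℝ)) / ((g 1 0 : ℝ) * u + (g 1 1 : ℝ)) := by
  filter_upwards [isOpen_upperHalfPlaneSet.mem_nhds z.im_pos] with u hu
  rw [coe_smul_of_det_pos hg, ofComplex_apply_of_im_pos hu]
  simp [num, denom]

theorem hasDerivAt_moebius (g : GL (Fin 2) ℝ) (z : ℍ) :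
    HasDerivAt (fun u : ℂ => ((g 0 0 : ℝ) * u + (g 0 1 : ℝ)) / ((g 1 0 : ℝ) * u + (g 1 1 : ℝ)))
      ((g.det.val : ℝ) / (denom g z) ^ 2) (z : ℂ) := by
  have hd : (g 1 0 : ℝ) * (z : ℂ) + (g 1 1 : ℝ) ≠ 0 := by
    have := denom_ne_zero g z
    simpa [denom] using this
  have h1 : HasDerivAt (fun u : ℂ => ((g 0 0 : ℝ) : ℂ) * u + (g 0 1 : ℝ)) ((g 0 0 : ℝ) : ℂ) (z : ℂ) := by
    simpa using ((hasDerivAt_id (z : ℂ)).const_mul ((g 0 0 : ℝ) : ℂ)).add_const ((g 0 1 : ℝ) : ℂ)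
  have h2 : HasDerivAt (fun u : ℂ => ((g 1 0 : ℝ) : ℂ) * u + (g 1 1 : ℝ)) ((g 1 0 : ℝ) : ℂ) (z : ℂ) := by
    simpa using ((hasDerivAt_id (z : ℂ)).const_mul ((g 1 0 : ℝ) : ℂ)).add_const ((g 1 1 : ℝ) : ℂ)
  have h3 := h1.div h2 hd
  refine h3.congr_deriv ?_
  rw [det_eq_of_GL]
  simp only [denom]
  push_cast
  field_simp
  ring

theorem moebius_aux (a b c d z x y : ℂ) (h : c * z + d ≠ 0) :
    (a * x + b * y) - (a * z + b) / (c * z + d) * (c * x + d * y)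
      = (a * d - b * c) * (x - z * y) / (c * z + d) := by
  rw [eq_div_iff h]
  have : (a * z + b) / (c * z + d) * (c * x + d * y) * (c * z + d)
      = (a * z + b) * (c * x + d * y) := by
    rw [mul_right_comm, div_mul_cancel₀ _ h]
  rw [sub_mul, this]
  ring

/-- The chain rule for `Ψ` composed with a Möbius transformation of positive determinant. -/
theorem hasDerivAt_PsiC_smul (w : ℕ) {f : ℍ → ℂ} (hf : HasChain (w + 1) f) (g : GL (Fin 2) ℝ)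
    (hg : 0 < g.det.val) (x y : ℂ) (z : ℍ) :
    HasDerivAt (fun u : ℂ => PsiC w f ((g • ofComplex u : ℍ) : ℂ)
        ((g 0 0 : ℝ) * x + (g 0 1 : ℝ) * y) ((g 1 0 : ℝ) * x + (g 1 1 : ℝ) * y))
      ((f ∣[(w : ℤ) + 2] g) z * (x - z * y) ^ w) (z : ℂ) := by
  set x' : ℂ := (g 0 0 : ℝ) * x + (g 0 1 : ℝ) * y with hx'
  set y' : ℂ := (g 1 0 : ℝ) * x + (g 1 1 : ℝ) * y with hy'
  have hd : (g 1 0 : ℝ) * (z : ℂ) + (g 1 1 : ℝ) ≠ 0 := by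
    have := denom_ne_zero g z
    simpa [denom] using this
  have hcoe : ((g • z : ℍ) : ℂ) =
      ((g 0 0 : ℝ) * (z : ℂ) + (g 0 1 : ℝ)) / ((g 1 0 : ℝ) * (z : ℂ) + (g 1 1 : ℝ)) := by
    rw [coe_smul_of_det_pos hg]
    simp [num, denom]
  have h1 := hasDerivAt_PsiC w hf x' y' (g • z)
  rw [hcoe] at h1
  have h2 := h1.comp (z : ℂ) (hasDerivAt_moebius g z)
  have h3 : HasDerivAt (fun u : ℂ => PsiC w f ((g • ofComplex u : ℍ) : ℂ) x' y')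
      (f (g • z) * (x' - ((g 0 0 : ℝ) * (z : ℂ) + (g 0 1 : ℝ)) / ((g 1 0 : ℝ) * (z : ℂ) + (g 1 1 : ℝ)) * y') ^ w *
        ((g.det.val : ℝ) / (denom g z) ^ 2)) (z : ℂ) := by
    refine h2.congr_of_eventuallyEq ?_
    filter_upwards [coe_smul_ofComplex_eventuallyEq g hg z] with u hu
    simp only [comp_apply]
    rw [hu]
  refine h3.congr_deriv ?_
  rw [ModularForm.slash_apply, UpperHalfPlane.σ, if_pos hg, abs_of_pos hg]
  simp only [ContinuousAlgEquiv.refl_apply]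
  have hdet : (g.det.val : ℝ) = g 0 0 * g 1 1 - g 0 1 * g 1 0 := det_eq_of_GL g
  have hden : denom g z = (g 1 0 : ℝ) * (z : ℂ) + (g 1 1 : ℝ) := by simp [denom]
  have e1 : ((w : ℤ) + 2 - 1) = ((w + 1 : ℕ) : ℤ) := by push_cast; ring
  have e2 : (-((w : ℤ) + 2)) = -((w + 2 : ℕ) : ℤ) := by push_cast; ring
  rw [e1, e2, zpow_natCast, zpow_neg, zpow_natCast, hden]
  have e3 : x' - ((g 0 0 : ℝ) * (z : ℂ) + (g 0 1 : ℝ)) / ((g 1 0 : ℝ) * (z : ℂ) + (g 1 1 : ℝ)) * y'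
      = ((g.det.val : ℝ) : ℂ) * (x - z * y) / ((g 1 0 : ℝ) * (z : ℂ) + (g 1 1 : ℝ)) := by
    rw [hx', hy', hdet, moebius_aux _ _ _ _ _ _ _ hd]
    push_cast
    ring
  rw [e3, div_pow, mul_pow]
  field_simp
  ring

/-- If `f ∣[w+2] g = φ` then `Ψ_f(g z; g v) - Ψ_φ(z; v)` is independent of `z`. -/
theorem PsiC_smul_sub_const (w : ℕ) {f φ : ℍ → ℂ} (hf : HasChain (w + 1) f)
    (hφ : HasChain (w + 1) φ) (g : GL (Fin 2) ℝ) (hg : 0 < g.det.val)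
    (hslash : f ∣[(w : ℤ) + 2] g = φ) (x y : ℂ) (z z' : ℍ) :
    PsiC w f ((g • z : ℍ) : ℂ) ((g 0 0 : ℝ) * x + (g 0 1 : ℝ) * y)
        ((g 1 0 : ℝ) * x + (g 1 1 : ℝ) * y) - PsiC w φ z x y
      = PsiC w f ((g • z' : ℍ) : ℂ) ((g 0 0 : ℝ) * x + (g 0 1 : ℝ) * y)
        ((g 1 0 : ℝ) * x + (g 1 1 : ℝ) * y) - PsiC w φ z' x y := by
  have hD : ∀ t : ℍ, HasDerivAt (fun u : ℂ => PsiC w f ((g • ofComplex u : ℍ) : ℂ)
        ((g 0 0 : ℝ) * x + (g 0 1 : ℝ) * y) ((g 1 0 : ℝ) * x + (g 1 1 : ℝ) * y)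
        - PsiC w φ u x y) 0 (t : ℂ) := by
    intro t
    have h := (hasDerivAt_PsiC_smul w hf g hg x y t).sub (hasDerivAt_PsiC w hφ x y t)
    rw [hslash, sub_self] at h
    exact h
  have := eq_of_hasDerivAt_zero hD z z'
  simpa only [ofComplex_apply] using this

/-- The action of a real `2 × 2` matrix on `ℂ²`. -/
def actV (g : GL (Fin 2) ℝ) (v : ℂ × ℂ) : ℂ × ℂ :=
  ((g 0 0 : ℝ) * v.1 + (g 0 1 : ℝ) * v.2, (g 1 0 : ℝ) * v.1 + (g 1 1 : ℝ) * v.2)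

theorem actV_one (v : ℂ × ℂ) : actV 1 v = v := by
  simp [actV]

theorem actV_mul (g g' : GL (Fin 2) ℝ) (v : ℂ × ℂ) : actV (g * g') v = actV g (actV g' v) := by
  simp only [actV, Matrix.GeneralLinearGroup.coe_mul, Matrix.mul_apply, Fin.sum_univ_two]
  push_cast
  ext <;> simp <;> ring

/-- `Ψ` as a function on `ℍ × ℂ²`. -/
noncomputable def Psi (w : ℕ) (f : ℍ → ℂ) (z : ℍ) (v : ℂ × ℂ) : ℂ := PsiC w f (z : ℂ) v.1 v.2

theorem Psi_smul_sub_const (w : ℕ) {f φ : ℍ → ℂ} (hf : HasChain (w + 1) f)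
    (hφ : HasChain (w + 1) φ) (g : GL (Fin 2) ℝ) (hg : 0 < g.det.val)
    (hslash : f ∣[(w : ℤ) + 2] g = φ) (v : ℂ × ℂ) (z z' : ℍ) :
    Psi w f (g • z) (actV g v) - Psi w φ z v = Psi w f (g • z') (actV g v) - Psi w φ z' v :=
  PsiC_smul_sub_const w hf hφ g hg hslash v.1 v.2 z z'

section UT

variable (g : GL (Fin 2) ℝ)

theorem det_pos_UT (h10 : g 1 0 = 0) (h00 : 0 < g 0 0) (h11 : 0 < g 1 1) : 0 < g.det.val := by
  rw [det_eq_of_GL, h10, mul_zero, sub_zero]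
  positivity

theorem coe_smul_UT (h10 : g 1 0 = 0) (h00 : 0 < g 0 0) (h11 : 0 < g 1 1) (z : ℍ) :
    ((g • z : ℍ) : ℂ) = ((g 0 0 : ℝ) * (z : ℂ) + (g 0 1 : ℝ)) / (g 1 1 : ℝ) := by
  rw [coe_smul_of_det_pos (det_pos_UT g h10 h00 h11)]
  simp [num, denom, h10]

theorem slash_UT_apply (h10 : g 1 0 = 0) (h00 : 0 < g 0 0) (h11 : 0 < g 1 1) (k : ℤ)
    (f : ℍ → ℂ) (z : ℍ) :
    (f ∣[k] g) z = f (g • z) * (((g 0 0 : ℝ) : ℂ) * ((g 1 1 : ℝ) : ℂ)) ^ (k - 1)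
      * ((g 1 1 : ℝ) : ℂ) ^ (-k) := by
  have hdet := det_pos_UT g h10 h00 h11
  rw [ModularForm.slash_apply, UpperHalfPlane.σ, if_pos hdet, abs_of_pos hdet]
  simp only [ContinuousAlgEquiv.refl_apply]
  have hden : denom g z = ((g 1 1 : ℝ) : ℂ) := by simp [denom, h10]
  rw [hden, det_eq_of_GL, h10, mul_zero, sub_zero]
  push_cast
  rfl

theorem zpow_aux (A D : ℂ) (hA : A ≠ 0) (hD : D ≠ 0) (k : ℤ) :
    D * ((A * D) ^ (k - 1 - 1) * D ^ (-(k - 1))) * (A / D) = (A * D) ^ (k - 1) * D ^ (-k) := by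
  have hAD : A * D ≠ 0 := mul_ne_zero hA hD
  have e : -(k - 1) = -k + 1 := by ring
  rw [zpow_sub_one₀ hAD, e, zpow_add_one₀ hD]
  field_simp

theorem ut_coeff (A D : ℂ) (hD : D ≠ 0) (n : ℕ) :
    D * ((A * D) ^ (n + 1) * (D ^ (n + 2))⁻¹) = A ^ (n + 1) := by
  rw [mul_pow, pow_succ D (n + 1)]
  field_simp

theorem isPrim_slash_UT (h10 : g 1 0 = 0) (h00 : 0 < g 0 0) (h11 : 0 < g 1 1) (k : ℤ)
    {F f : ℍ → ℂ} (hF : IsPrim F f) :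
    IsPrim (((g 1 1 : ℝ) : ℂ) • (F ∣[k - 1] g)) (f ∣[k] g) := by
  intro z
  have hA : ((g 0 0 : ℝ) : ℂ) ≠ 0 := by exact_mod_cast h00.ne'
  have hD : ((g 1 1 : ℝ) : ℂ) ≠ 0 := by exact_mod_cast h11.ne'
  set K : ℂ := (((g 0 0 : ℝ) : ℂ) * ((g 1 1 : ℝ) : ℂ)) ^ (k - 1 - 1) * ((g 1 1 : ℝ) : ℂ) ^ (-(k - 1))
    with hK
  have h1 : HasDerivAt (fun u : ℂ => (((g 0 0 : ℝ) : ℂ) * u + (g 0 1 : ℝ)) / ((g 1 1 : ℝ) : ℂ))
      (((g 0 0 : ℝ) : ℂ) / ((g 1 1 : ℝ) : ℂ)) (z : ℂ) := by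
    simpa using (((hasDerivAt_id (z : ℂ)).const_mul ((g 0 0 : ℝ) : ℂ)).add_const
      ((g 0 1 : ℝ) : ℂ)).div_const ((g 1 1 : ℝ) : ℂ)
  have h2 := hF (g • z)
  rw [coe_smul_UT g h10 h00 h11] at h2
  have h3 := (h2.comp (z : ℂ) h1).const_mul (((g 1 1 : ℝ) : ℂ) * K)
  have h4 : HasDerivAt ((((g 1 1 : ℝ) : ℂ) • (F ∣[k - 1] g)) ∘ ofComplex)
      (((g 1 1 : ℝ) : ℂ) * K * (f (g • z) * (((g 0 0 : ℝ) : ℂ) / ((g 1 1 : ℝ) : ℂ)))) (z : ℂ) := by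
    refine h3.congr_of_eventuallyEq ?_
    filter_upwards [isOpen_upperHalfPlaneSet.mem_nhds z.im_pos] with u hu
    simp only [comp_apply, Pi.smul_apply, smul_eq_mul]
    have e : ((((g 0 0 : ℝ) : ℂ) * u + (g 0 1 : ℝ)) / ((g 1 1 : ℝ) : ℂ) : ℂ)
        = ((g • ofComplex u : ℍ) : ℂ) := by
      rw [coe_smul_UT g h10 h00 h11, ofComplex_apply_of_im_pos hu]
    rw [slash_UT_apply g h10 h00 h11, e, ofComplex_apply, hK]
    ring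
  refine h4.congr_deriv ?_
  rw [slash_UT_apply g h10 h00 h11, hK]
  have := zpow_aux ((g 0 0 : ℝ) : ℂ) ((g 1 1 : ℝ) : ℂ) hA hD k
  linear_combination f (g • z) * this

theorem HasPrim.slash_UT (h10 : g 1 0 = 0) (h00 : 0 < g 0 0) (h11 : 0 < g 1 1) (k : ℤ)
    {f : ℍ → ℂ} (hf : HasPrim f) : HasPrim (f ∣[k] g) :=
  ⟨((g 1 1 : ℝ) : ℂ) • ((prim f) ∣[k - 1] g),
    isZeroAtImInfty_smul _ (IsZeroAtImInfty.slash (k - 1) h10 hf.zero),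
    isPrim_slash_UT g h10 h00 h11 k hf.isPrim⟩

theorem prim_slash_UT (h10 : g 1 0 = 0) (h00 : 0 < g 0 0) (h11 : 0 < g 1 1) (k : ℤ)
    {f : ℍ → ℂ} (hf : HasPrim f) :
    prim (f ∣[k] g) = ((g 1 1 : ℝ) : ℂ) • ((prim f) ∣[k - 1] g) :=
  prim_eq (isZeroAtImInfty_smul _ (IsZeroAtImInfty.slash (k - 1) h10 hf.zero))
    (isPrim_slash_UT g h10 h00 h11 k hf.isPrim)

theorem HasChain.slash_UT (h10 : g 1 0 = 0) (h00 : 0 < g 0 0) (h11 : 0 < g 1 1) (n : ℕ) :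
    ∀ {f : ℍ → ℂ} (k : ℤ), HasChain n f → HasChain n (f ∣[k] g) := by
  induction n with
  | zero => intro f k _; trivial
  | succ n ih =>
    intro f k hf
    refine ⟨hf.1.slash_UT g h10 h00 h11 k, ?_⟩
    rw [prim_slash_UT g h10 h00 h11 k hf.1]
    exact (ih (k - 1) hf.2).smul _

theorem PsiC_slash_UT (h10 : g 1 0 = 0) (h00 : 0 < g 0 0) (h11 : 0 < g 1 1) (w : ℕ) :
    ∀ {f : ℍ → ℂ}, HasChain (w + 1) f → ∀ (z : ℍ) (x y : ℂ),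
      PsiC w (f ∣[(w : ℤ) + 2] g) z x y
        = PsiC w f ((g • z : ℍ) : ℂ) ((g 0 0 : ℝ) * x + (g 0 1 : ℝ) * y) ((g 1 1 : ℝ) * y) := by
  have hA : ((g 0 0 : ℝ) : ℂ) ≠ 0 := by exact_mod_cast h00.ne'
  have hD : ((g 1 1 : ℝ) : ℂ) ≠ 0 := by exact_mod_cast h11.ne'
  induction w with
  | zero =>
    intro f hf z x y
    rw [PsiC_zero, PsiC_zero, ofComplex_apply, ofComplex_apply]
    have e : ((0 : ℕ) : ℤ) + 2 = 2 := by norm_num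
    rw [e, prim_slash_UT g h10 h00 h11 2 hf.1, Pi.smul_apply, smul_eq_mul,
      slash_UT_apply g h10 h00 h11]
    norm_num
    field_simp
  | succ w ih =>
    intro f hf z x y
    rw [PsiC_succ, PsiC_succ, ofComplex_apply, ofComplex_apply]
    have e : ((w + 1 : ℕ) : ℤ) + 2 - 1 = (w : ℤ) + 2 := by push_cast; ring
    rw [prim_slash_UT g h10 h00 h11 _ hf.1, e, Pi.smul_apply, smul_eq_mul,
      PsiC_smul w _ (hf.2.slash_UT g h10 h00 h11 (w + 1) ((w : ℤ) + 2)), ih hf.2,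
      slash_UT_apply g h10 h00 h11]
    have e1 : ((w : ℤ) + 2 - 1) = ((w + 1 : ℕ) : ℤ) := by push_cast; ring
    have e2 : (-((w : ℤ) + 2)) = -((w + 2 : ℕ) : ℤ) := by push_cast; ring
    rw [e1, e2, zpow_natCast, zpow_neg, zpow_natCast]
    have e3 : ((g 0 0 : ℝ) : ℂ) * x + ((g 0 1 : ℝ) : ℂ) * y
        - ((g • z : ℍ) : ℂ) * (((g 1 1 : ℝ) : ℂ) * y)
        = ((g 0 0 : ℝ) : ℂ) * (x - z * y) := by
      rw [coe_smul_UT g h10 h00 h11]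
      field_simp
      ring
    rw [e3, mul_pow ((g 0 0 : ℝ) : ℂ) (x - (z : ℂ) * y)]
    have key := ut_coeff ((g 0 0 : ℝ) : ℂ) ((g 1 1 : ℝ) : ℂ) hD w
    linear_combination (prim f (g • z) * (x - (z : ℂ) * y) ^ (w + 1)) * key

end UT

end Fermat.Agent.H4
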