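import Mathlib

/-!
# Decaying primitives of periodic holomorphic functions on the upper half plane
-/

set_option autoImplicit false

open Complex Filter Function
open UpperHalfPlane hiding I
open scoped Manifold Topology Real

namespace Fermat.Agent.H4

/-- `G` is a primitive of `g` on the upper half plane. -/
def IsPrim (G g : ℍ → ℂ) : Prop := ∀ z : ℍ, HasDerivAt (G ∘ ofComplex) (g z) (z : ℂ)

/-- Periodic, holomorphic and zero at `i∞`. -/
structure Nice (h : ℝ) (g : ℍ → ℂ) : Prop where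
  per : Periodic (g ∘ ofComplex) h
  hol : MDifferentiable 𝓘(ℂ) 𝓘(ℂ) g
  zero : IsZeroAtImInfty g

theorem eq_of_hasDerivAt_zero {D : ℂ → ℂ} (hD : ∀ z : ℍ, HasDerivAt D 0 (z : ℂ)) (z w : ℍ) :
    D z = D w := by
  have hs : IsOpen {z : ℂ | 0 < z.im} := isOpen_upperHalfPlaneSet
  have hc : IsPreconnected {z : ℂ | 0 < z.im} := (convex_halfSpace_im_gt 0).isPreconnected
  have hd : DifferentiableOn ℂ D {z : ℂ | 0 < z.im} := fun u hu =>
    (hD ⟨u, hu⟩).differentiableAt.differentiableWithinAt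
  have hd' : Set.EqOn (deriv D) 0 {z : ℂ | 0 < z.im} := fun u hu => (hD ⟨u, hu⟩).deriv
  exact hs.is_const_of_deriv_eq_zero hc hd hd' z.im_pos w.im_pos

theorem IsPrim.eq_of_zero {G₁ G₂ g : ℍ → ℂ} (h₁ : IsPrim G₁ g) (h₂ : IsPrim G₂ g)
    (z₁ : IsZeroAtImInfty G₁) (z₂ : IsZeroAtImInfty G₂) : G₁ = G₂ := by
  have hD : ∀ z : ℍ, HasDerivAt (fun u => (G₁ ∘ ofComplex) u - (G₂ ∘ ofComplex) u) 0 (z : ℂ) := by
    intro z
    have := (h₁ z).sub (h₂ z)
    rw [sub_self] at this
    exact this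
  have hconst : ∀ z : ℍ, G₁ z - G₂ z = G₁ UpperHalfPlane.I - G₂ UpperHalfPlane.I := by
    intro z
    have := eq_of_hasDerivAt_zero hD z UpperHalfPlane.I
    simpa only [comp_apply, ofComplex_apply] using this
  have ht : Tendsto (fun z : ℍ => G₁ z - G₂ z) atImInfty (𝓝 0) := by
    simpa using Tendsto.sub z₁ z₂
  have ht' : Tendsto (fun z : ℍ => G₁ z - G₂ z) atImInfty
      (𝓝 (G₁ UpperHalfPlane.I - G₂ UpperHalfPlane.I)) := by
    simp only [hconst]
    exact tendsto_const_nhds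
  have h0 : G₁ UpperHalfPlane.I - G₂ UpperHalfPlane.I = 0 := tendsto_nhds_unique ht' ht
  funext z
  have := hconst z
  rw [h0] at this
  exact sub_eq_zero.mp this

theorem hasDerivAt_qParam (h : ℝ) (z : ℂ) :
    HasDerivAt (Periodic.qParam h) (Periodic.qParam h z * (2 * π * I / h)) z := by
  unfold Periodic.qParam
  simpa using (((hasDerivAt_id z).const_mul (2 * π * I)).div_const (h : ℂ)).cexp

theorem qParam_add_period {h : ℝ} (hh : h ≠ 0) (z : ℂ) :
    Periodic.qParam h (z + h) = Periodic.qParam h z := by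
  unfold Periodic.qParam
  have hh' : (h : ℂ) ≠ 0 := by exact_mod_cast hh
  have : 2 * π * I * (z + h) / h = 2 * π * I * z / h + 2 * π * I := by
    field_simp
  rw [this, Complex.exp_add, Complex.exp_two_pi_mul_I, mul_one]

theorem periodic_comp_ofComplex_of {h : ℝ} (Gc : ℂ → ℂ) (hG : ∀ u : ℂ, Gc (u + h) = Gc u) :
    Periodic ((fun z : ℍ => Gc z) ∘ ofComplex) h := by
  intro w
  by_cases hw : 0 < im w
  · have hw' : 0 < im (w + h) := by simpa using hw
    simp only [comp_apply, ofComplex_apply_of_im_pos hw', ofComplex_apply_of_im_pos hw]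
    exact hG w
  · have hw0 : im w ≤ 0 := not_lt.mp hw
    have hw' : im (w + h) ≤ 0 := by simpa using hw0
    simp [ofComplex_apply_of_im_nonpos hw', ofComplex_apply_of_im_nonpos hw0]

theorem comp_ofComplex_eventuallyEq (Gc : ℂ → ℂ) (z : ℍ) :
    ((fun z : ℍ => Gc z) ∘ ofComplex) =ᶠ[𝓝 (z : ℂ)] Gc := by
  filter_upwards [isOpen_upperHalfPlaneSet.mem_nhds z.im_pos] with u hu
  simp [comp_apply, ofComplex_apply_of_im_pos hu]

theorem Nice.exists_prim {h : ℝ} (hh : 0 < h) {g : ℍ → ℂ} (hg : Nice h g) :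
    ∃ G, Nice h G ∧ IsPrim G g := by
  set c := cuspFunction h g with hc
  have hcd : DifferentiableOn ℂ c (Metric.ball 0 1) :=
    differentiableOn_cuspFunction_ball hh hg.per hg.hol hg.zero.isBoundedAtImInfty
  have hc0 : c 0 = 0 := hg.zero.cuspFunction_apply_zero hh
  have hd : DifferentiableOn ℂ (dslope c 0) (Metric.ball 0 1) :=
    (differentiableOn_dslope (Metric.ball_mem_nhds 0 one_pos)).mpr hcd
  obtain ⟨P, hP0, hP⟩ := (hd.isExactOn_ball).with_val_at 0 0
  have hh' : (h : ℂ) ≠ 0 := by exact_mod_cast hh.ne'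
  have hpi : (2 * π * I : ℂ) ≠ 0 := two_pi_I_ne_zero
  let Gc : ℂ → ℂ := fun u => (h / (2 * π * I)) * P (Periodic.qParam h u)
  have hderiv : ∀ z : ℍ, HasDerivAt Gc (g z) (z : ℂ) := by
    intro z
    have hq : Periodic.qParam h z ∈ Metric.ball (0 : ℂ) 1 := by
      simpa using Periodic.norm_qParam_lt_one hh z.im_pos
    have h1 := (hP _ hq).comp (z : ℂ) (hasDerivAt_qParam h z)
    have h2 := h1.const_mul (h / (2 * π * I) : ℂ)
    have hval : (h / (2 * π * I) : ℂ) *
        (dslope c 0 (Periodic.qParam h z) * (Periodic.qParam h z * (2 * π * I / h))) = g z := by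
      have e1 : Periodic.qParam h z * dslope c 0 (Periodic.qParam h z) = g z := by
        have := sub_smul_dslope c 0 (Periodic.qParam h z)
        rw [sub_zero, hc0, sub_zero, smul_eq_mul] at this
        rw [this, hc]
        exact eq_cuspFunction z hh.ne' hg.per
      rw [← e1]
      field_simp
    rw [hval] at h2
    exact h2
  have hper : ∀ u : ℂ, Gc (u + h) = Gc u := by
    intro u
    simp only [Gc, qParam_add_period hh.ne']
  refine ⟨fun z => Gc z, ⟨periodic_comp_ofComplex_of Gc hper, ?_, ?_⟩, ?_⟩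
  · rw [UpperHalfPlane.mdifferentiable_iff]
    intro u hu
    have := (hderiv ⟨u, hu⟩).congr_of_eventuallyEq (comp_ofComplex_eventuallyEq Gc ⟨u, hu⟩)
    exact this.differentiableAt.differentiableWithinAt
  · have hPc : ContinuousAt P 0 := (hP 0 (by simp)).continuousAt
    have ht : Tendsto (fun τ : ℍ => P (Periodic.qParam h τ)) atImInfty (𝓝 (P 0)) :=
      hPc.tendsto.comp (qParam_tendsto_atImInfty hh)
    rw [hP0] at ht
    have := ht.const_mul (h / (2 * π * I) : ℂ)
    simpa [IsZeroAtImInfty, ZeroAtFilter, Gc] using this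
  · intro z
    exact (hderiv z).congr_of_eventuallyEq (comp_ofComplex_eventuallyEq Gc z)

/-- `g` has a primitive that vanishes at `i∞`. -/
def HasPrim (g : ℍ → ℂ) : Prop := ∃ G, IsZeroAtImInfty G ∧ IsPrim G g

open Classical in
/-- The primitive vanishing at `i∞` (junk value `0` if there is none). -/
noncomputable def prim (g : ℍ → ℂ) : ℍ → ℂ := if h : HasPrim g then h.choose else 0

theorem HasPrim.zero {g : ℍ → ℂ} (h : HasPrim g) : IsZeroAtImInfty (prim g) := by
  unfold prim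
  rw [dif_pos h]
  exact h.choose_spec.1

theorem HasPrim.isPrim {g : ℍ → ℂ} (h : HasPrim g) : IsPrim (prim g) g := by
  unfold prim
  rw [dif_pos h]
  exact h.choose_spec.2

theorem prim_eq {G g : ℍ → ℂ} (h0 : IsZeroAtImInfty G) (hG : IsPrim G g) : prim g = G :=
  have h : HasPrim g := ⟨G, h0, hG⟩
  h.isPrim.eq_of_zero hG h.zero h0

theorem Nice.hasPrim {h : ℝ} (hh : 0 < h) {g : ℍ → ℂ} (hg : Nice h g) : HasPrim g := by
  obtain ⟨G, hG, hGp⟩ := hg.exists_prim hh
  exact ⟨G, hG.zero, hGp⟩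

theorem Nice.primNice {h : ℝ} (hh : 0 < h) {g : ℍ → ℂ} (hg : Nice h g) : Nice h (prim g) := by
  obtain ⟨G, hG, hGp⟩ := hg.exists_prim hh
  rw [prim_eq hG.zero hGp]
  exact hG

theorem Nice.iterate {h : ℝ} (hh : 0 < h) {g : ℍ → ℂ} (hg : Nice h g) (s : ℕ) :
    Nice h (H4.prim^[s] g) := by
  induction s with
  | zero => exact hg
  | succ s ih =>
    rw [Function.iterate_succ_apply']
    exact ih.primNice hh

/-- `f` has `n` successive primitives vanishing at `i∞`. -/
def HasChain : ℕ → (ℍ → ℂ) → Prop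
  | 0, _ => True
  | n + 1, f => HasPrim f ∧ HasChain n (prim f)

theorem Nice.hasChain {h : ℝ} (hh : 0 < h) (n : ℕ) : ∀ {g : ℍ → ℂ}, Nice h g → HasChain n g := by
  induction n with
  | zero => intro g _; trivial
  | succ n ih => intro g hg; exact ⟨hg.hasPrim hh, ih (hg.primNice hh)⟩

theorem HasChain.mono {n m : ℕ} (hmn : m ≤ n) : ∀ {f : ℍ → ℂ}, HasChain n f → HasChain m f := by
  induction m generalizing n with
  | zero => intro f _; trivial
  | succ m ih =>
    intro f hf
    obtain ⟨n, rfl⟩ : ∃ n', n = n' + 1 := ⟨n - 1, by omega⟩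
    exact ⟨hf.1, ih (by omega) hf.2⟩

theorem HasChain.hasPrim_iterate {n : ℕ} : ∀ {f : ℍ → ℂ}, HasChain n f → ∀ s < n,
    HasPrim (prim^[s] f) := by
  induction n with
  | zero => intro f _ s hs; omega
  | succ n ih =>
    intro f hf s hs
    cases s with
    | zero => exact hf.1
    | succ s =>
      rw [Function.iterate_succ_apply]
      exact ih hf.2 s (by omega)

theorem isPrim_add {G₁ G₂ g₁ g₂ : ℍ → ℂ} (h₁ : IsPrim G₁ g₁) (h₂ : IsPrim G₂ g₂) :
    IsPrim (G₁ + G₂) (g₁ + g₂) := fun z => by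
  have := (h₁ z).add (h₂ z)
  exact this

theorem isPrim_smul (c : ℂ) {G g : ℍ → ℂ} (h : IsPrim G g) : IsPrim (c • G) (c • g) := fun z => by
  have := (h z).const_mul c
  exact this

theorem isZeroAtImInfty_add {G₁ G₂ : ℍ → ℂ} (h₁ : IsZeroAtImInfty G₁) (h₂ : IsZeroAtImInfty G₂) :
    IsZeroAtImInfty (G₁ + G₂) := by
  have := Tendsto.add h₁ h₂
  rw [add_zero] at this
  exact this

theorem isZeroAtImInfty_smul (c : ℂ) {G : ℍ → ℂ} (h : IsZeroAtImInfty G) :
    IsZeroAtImInfty (c • G) := by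
  have := Tendsto.const_mul c h
  rw [mul_zero] at this
  exact this

theorem HasPrim.add {g₁ g₂ : ℍ → ℂ} (h₁ : HasPrim g₁) (h₂ : HasPrim g₂) : HasPrim (g₁ + g₂) :=
  ⟨prim g₁ + prim g₂, isZeroAtImInfty_add h₁.zero h₂.zero, isPrim_add h₁.isPrim h₂.isPrim⟩

theorem prim_add {g₁ g₂ : ℍ → ℂ} (h₁ : HasPrim g₁) (h₂ : HasPrim g₂) :
    prim (g₁ + g₂) = prim g₁ + prim g₂ :=
  prim_eq (isZeroAtImInfty_add h₁.zero h₂.zero) (isPrim_add h₁.isPrim h₂.isPrim)

theorem HasPrim.smul (c : ℂ) {g : ℍ → ℂ} (h : HasPrim g) : HasPrim (c • g) :=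
  ⟨c • prim g, isZeroAtImInfty_smul c h.zero, isPrim_smul c h.isPrim⟩

theorem prim_smul (c : ℂ) {g : ℍ → ℂ} (h : HasPrim g) : prim (c • g) = c • prim g :=
  prim_eq (isZeroAtImInfty_smul c h.zero) (isPrim_smul c h.isPrim)

theorem HasChain.add {n : ℕ} : ∀ {f g : ℍ → ℂ}, HasChain n f → HasChain n g →
    HasChain n (f + g) := by
  induction n with
  | zero => intro f g _ _; trivial
  | succ n ih =>
    intro f g hf hg
    refine ⟨hf.1.add hg.1, ?_⟩
    rw [prim_add hf.1 hg.1]
    exact ih hf.2 hg.2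

theorem HasChain.smul {n : ℕ} (c : ℂ) : ∀ {f : ℍ → ℂ}, HasChain n f → HasChain n (c • f) := by
  induction n with
  | zero => intro f _; trivial
  | succ n ih =>
    intro f hf
    refine ⟨hf.1.smul c, ?_⟩
    rw [prim_smul c hf.1]
    exact ih hf.2

theorem HasChain.iterate_add {n : ℕ} : ∀ {f g : ℍ → ℂ}, HasChain n f → HasChain n g →
    ∀ s ≤ n, prim^[s] (f + g) = prim^[s] f + prim^[s] g := by
  induction n with
  | zero =>
    intro f g _ _ s hs
    obtain rfl : s = 0 := by omega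
    rfl
  | succ n ih =>
    intro f g hf hg s hs
    cases s with
    | zero => rfl
    | succ s =>
      simp only [Function.iterate_succ_apply]
      rw [prim_add hf.1 hg.1]
      exact ih hf.2 hg.2 s (by omega)

theorem HasChain.iterate_smul {n : ℕ} (c : ℂ) : ∀ {f : ℍ → ℂ}, HasChain n f →
    ∀ s ≤ n, prim^[s] (c • f) = c • prim^[s] f := by
  induction n with
  | zero =>
    intro f _ s hs
    obtain rfl : s = 0 := by omega
    rfl
  | succ n ih =>
    intro f hf s hs
    cases s with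
    | zero => rfl
    | succ s =>
      simp only [Function.iterate_succ_apply]
      rw [prim_smul c hf.1]
      exact ih hf.2 s (by omega)

end Fermat.Agent.H4
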