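import Fermat.Agent.Lib.H4.Prim

/-!
# The Eichler–Shimura kernel `Ψ_w(f)(u; x, y) = ∫_{i∞}^u f(t) (x - t y)^w dt`
defined through successive decaying primitives.
-/

set_option autoImplicit false

open Complex Filter Function
open UpperHalfPlane hiding I
open scoped Manifold Topology Real MatrixGroups ModularForm

namespace Fermat.Agent.H4

/-- `Ψ_w(f)(u; x, y)`, morally `∫_{i∞}^u f(t) (x - t y)^w dt`. -/
noncomputable def PsiC : ℕ → (ℍ → ℂ) → ℂ → ℂ → ℂ → ℂ
  | 0, f, u, _, _ => prim f (ofComplex u)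
  | w + 1, f, u, x, y =>
      prim f (ofComplex u) * (x - u * y) ^ (w + 1) + ((w : ℂ) + 1) * y * PsiC w (prim f) u x y

theorem PsiC_zero (f : ℍ → ℂ) (u x y : ℂ) : PsiC 0 f u x y = prim f (ofComplex u) := rfl

theorem PsiC_succ (w : ℕ) (f : ℍ → ℂ) (u x y : ℂ) :
    PsiC (w + 1) f u x y =
      prim f (ofComplex u) * (x - u * y) ^ (w + 1) + ((w : ℂ) + 1) * y * PsiC w (prim f) u x y :=
  rfl

theorem hasDerivAt_PsiC (w : ℕ) : ∀ {f : ℍ → ℂ}, HasChain (w + 1) f → ∀ (x y : ℂ) (z : ℍ),
    HasDerivAt (fun u => PsiC w f u x y) (f z * (x - z * y) ^ w) (z : ℂ) := by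
  induction w with
  | zero =>
    intro f hf x y z
    have := hf.1.isPrim z
    simp only [pow_zero, mul_one]
    exact this
  | succ w ih =>
    intro f hf x y z
    have h1 : HasDerivAt (fun u => prim f (ofComplex u)) (f z) (z : ℂ) := hf.1.isPrim z
    have h0 : HasDerivAt (fun u : ℂ => x - u * y) (-y) (z : ℂ) := by
      have := ((hasDerivAt_id (z : ℂ)).mul_const y).const_sub x
      simpa using this
    have h2 := h0.pow (w + 1)
    have h3 := ih hf.2 x y z
    have h4 := (h1.mul h2).add (h3.const_mul (((w : ℂ) + 1) * y))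
    refine h4.congr_deriv ?_
    simp only [ofComplex_apply, Nat.add_sub_cancel, Nat.cast_add, Nat.cast_one, Pi.pow_apply]
    ring

theorem PsiC_eq_sum (w : ℕ) : ∀ (f : ℍ → ℂ) (u x y : ℂ),
    PsiC w f u x y = ∑ s ∈ Finset.range (w + 1),
      (w.descFactorial s : ℂ) * y ^ s * prim^[s + 1] f (ofComplex u) * (x - u * y) ^ (w - s) := by
  induction w with
  | zero =>
    intro f u x y
    simp [PsiC_zero]
  | succ w ih =>
    intro f u x y
    rw [PsiC_succ, ih, Finset.mul_sum]
    conv_rhs => rw [Finset.sum_range_succ']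
    rw [add_comm]
    congr 1
    · refine Finset.sum_congr rfl fun s _ => ?_
      rw [Nat.succ_descFactorial_succ, Nat.succ_sub_succ]
      simp only [Function.iterate_succ_apply]
      push_cast
      ring
    · simp

theorem PsiC_add (w : ℕ) {f g : ℍ → ℂ} (hf : HasChain (w + 1) f) (hg : HasChain (w + 1) g)
    (u x y : ℂ) : PsiC w (f + g) u x y = PsiC w f u x y + PsiC w g u x y := by
  rw [PsiC_eq_sum, PsiC_eq_sum, PsiC_eq_sum, ← Finset.sum_add_distrib]
  refine Finset.sum_congr rfl fun s hs => ?_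
  rw [hf.iterate_add hg (s + 1) (by have := Finset.mem_range.mp hs; omega), Pi.add_apply]
  ring

theorem PsiC_smul (w : ℕ) (c : ℂ) {f : ℍ → ℂ} (hf : HasChain (w + 1) f)
    (u x y : ℂ) : PsiC w (c • f) u x y = c * PsiC w f u x y := by
  rw [PsiC_eq_sum, PsiC_eq_sum, Finset.mul_sum]
  refine Finset.sum_congr rfl fun s hs => ?_
  rw [hf.iterate_smul c (s + 1) (by have := Finset.mem_range.mp hs; omega), Pi.smul_apply,
    smul_eq_mul]
  ring

theorem PsiC_homog (w : ℕ) (f : ℍ → ℂ) (u t x y : ℂ) :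
    PsiC w f u (t * x) (t * y) = t ^ w * PsiC w f u x y := by
  rw [PsiC_eq_sum, PsiC_eq_sum, Finset.mul_sum]
  refine Finset.sum_congr rfl fun s hs => ?_
  have hs' : s ≤ w := by have := Finset.mem_range.mp hs; omega
  have e : t * x - u * (t * y) = t * (x - u * y) := by ring
  have e2 : t ^ w = t ^ s * t ^ (w - s) := by rw [← pow_add]; congr 1; omega
  rw [e, mul_pow, mul_pow, e2]
  ring

theorem PsiC_diag (w : ℕ) (f : ℍ → ℂ) (u y : ℂ) :
    PsiC w f u (u * y) y = (w.factorial : ℂ) * y ^ w * prim^[w + 1] f (ofComplex u) := by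
  rw [PsiC_eq_sum, Finset.sum_eq_single w]
  · simp [Nat.descFactorial_self]
  · intro s hs hsw
    have hs' : s < w := by have := Finset.mem_range.mp hs; omega
    have : w - s ≠ 0 := by omega
    simp [this]
  · intro h
    exact absurd (Finset.mem_range.mpr (Nat.lt_succ_self w)) h

theorem PsiC_poly (w : ℕ) (f : ℍ → ℂ) (u a b c d : ℂ) :
    ∃ P : Polynomial ℂ, ∀ t : ℂ, PsiC w f u (a * t + b) (c * t + d) = P.eval t := by
  classical
  refine ⟨∑ s ∈ Finset.range (w + 1),
      Polynomial.C ((w.descFactorial s : ℂ)) * (Polynomial.C c * Polynomial.X + Polynomial.C d) ^ s *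
        Polynomial.C (prim^[s + 1] f (ofComplex u)) *
        (Polynomial.C a * Polynomial.X + Polynomial.C b -
          Polynomial.C u * (Polynomial.C c * Polynomial.X + Polynomial.C d)) ^ (w - s), fun t => ?_⟩
  rw [PsiC_eq_sum, Polynomial.eval_finsetSum]
  refine Finset.sum_congr rfl fun s _ => ?_
  simp

end Fermat.Agent.H4
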