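import Fermat.Agent.Lib.H4.Cusp

/-!
# The period lattice separates points of `S_{w+2}(Γ₀(N))`
-/

set_option autoImplicit false

open Complex Filter Function
open UpperHalfPlane hiding I
open scoped Manifold Topology Real MatrixGroups ModularForm
open Matrix.SpecialLinearGroup

namespace Fermat.Agent.H4

theorem poly_eq_zero_of_int {P : Polynomial ℂ} (h : ∀ n : ℤ, P.eval (n : ℂ) = 0) : P = 0 := by
  apply Polynomial.eq_zero_of_infinite_isRoot
  apply Set.Infinite.mono (s := Set.range (Int.cast : ℤ → ℂ))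
  · rintro _ ⟨n, rfl⟩
    exact h n
  · exact Set.infinite_range_of_injective Int.cast_injective

theorem poly_const_of_periodic {P : Polynomial ℂ} {M : ℝ} (hM : 0 < M)
    (h : ∀ z : ℍ, P.eval ((z : ℂ) + M) = P.eval (z : ℂ)) : ∀ t : ℂ, P.eval t = P.eval 0 := by
  have hM' : (M : ℂ) ≠ 0 := by exact_mod_cast hM.ne'
  have hR : P.comp (Polynomial.X + Polynomial.C (M : ℂ)) - P = 0 := by
    apply Polynomial.eq_zero_of_infinite_isRoot
    apply Set.Infinite.mono (s := Set.range (fun n : ℕ => (n : ℂ) + Complex.I))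
    · rintro _ ⟨n, rfl⟩
      have hn : 0 < ((n : ℂ) + Complex.I).im := by simp
      have := h ⟨_, hn⟩
      simp only [Set.mem_ofPred_eq, Polynomial.IsRoot, Polynomial.eval_sub, Polynomial.eval_comp,
        Polynomial.eval_add, Polynomial.eval_X, Polynomial.eval_C]
      rw [sub_eq_zero]
      exact this
    · apply Set.infinite_range_of_injective
      intro a b hab
      simpa using hab
  have hper : ∀ t : ℂ, P.eval (t + M) = P.eval t := by
    intro t
    have := congrArg (Polynomial.eval t) hR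
    simpa [sub_eq_zero, Polynomial.eval_comp] using this
  have hnat : ∀ n : ℕ, P.eval ((n : ℂ) * M) = P.eval 0 := by
    intro n
    induction n with
    | zero => simp
    | succ n ih =>
      rw [← ih, ← hper ((n : ℂ) * M)]
      congr 1
      push_cast
      ring
  have hS : P - Polynomial.C (P.eval 0) = 0 := by
    apply Polynomial.eq_zero_of_infinite_isRoot
    apply Set.Infinite.mono (s := Set.range (fun n : ℕ => (n : ℂ) * (M : ℂ)))
    · rintro _ ⟨n, rfl⟩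
      simp only [Set.mem_ofPred_eq, Polynomial.IsRoot, Polynomial.eval_sub, Polynomial.eval_C]
      rw [sub_eq_zero]
      exact hnat n
    · apply Set.infinite_range_of_injective
      intro a b hab
      have := mul_right_cancel₀ hM' hab
      exact_mod_cast this
  intro t
  have := congrArg (Polynomial.eval t) hS
  simpa [sub_eq_zero] using this

theorem eq_zero_of_iterate_prim_eq_zero (n : ℕ) : ∀ {f : ℍ → ℂ}, HasChain n f →
    prim^[n] f = 0 → f = 0 := by
  induction n with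
  | zero => intro f _ h; exact h
  | succ n ih =>
    intro f hf h
    rw [Function.iterate_succ_apply] at h
    have h1 : prim f = 0 := ih hf.2 h
    funext z
    have h2 := hf.1.isPrim z
    rw [h1] at h2
    have h3 : HasDerivAt ((0 : ℍ → ℂ) ∘ ofComplex) 0 (z : ℂ) := hasDerivAt_const _ _
    exact h2.unique h3

section

variable {N : ℕ} [NeZero N] {w : ℕ}

/-- A period functional vanishing at all integer vectors vanishes identically. -/
theorem lam_eq_zero_of_int (g : GL (Fin 2) ℝ) (f : CF N w)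
    (h : ∀ m n : ℤ, lam N w g ((m : ℂ), (n : ℂ)) f = 0) : ∀ v : ℂ × ℂ, lam N w g v f = 0 := by
  have hA : ∀ (n : ℤ) (x : ℂ), lam N w g (x, (n : ℂ)) f = 0 := by
    intro n x
    obtain ⟨P1, hP1⟩ := PsiC_poly w f ((g • UpperHalfPlane.I : ℍ) : ℂ) ((g 0 0 : ℝ) : ℂ)
      (((g 0 1 : ℝ) : ℂ) * n) ((g 1 0 : ℝ) : ℂ) (((g 1 1 : ℝ) : ℂ) * n)
    obtain ⟨P2, hP2⟩ := PsiC_poly w f ((UpperHalfPlane.I : ℍ) : ℂ) 1 0 0 (n : ℂ)
    have hP : P1 - P2 = 0 := by
      apply poly_eq_zero_of_int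
      intro m
      have := h m n
      rw [lam_apply] at this
      simp only [Psi, actV] at this
      rw [Polynomial.eval_sub, ← hP1, ← hP2]
      simpa using this
    have := congrArg (Polynomial.eval x) hP
    rw [Polynomial.eval_sub, ← hP1, ← hP2] at this
    rw [lam_apply]
    simp only [Psi, actV]
    simpa using this
  intro v
  obtain ⟨x, y⟩ := v
  obtain ⟨P1, hP1⟩ := PsiC_poly w f ((g • UpperHalfPlane.I : ℍ) : ℂ) ((g 0 1 : ℝ) : ℂ)
    (((g 0 0 : ℝ) : ℂ) * x) ((g 1 1 : ℝ) : ℂ) (((g 1 0 : ℝ) : ℂ) * x)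
  obtain ⟨P2, hP2⟩ := PsiC_poly w f ((UpperHalfPlane.I : ℍ) : ℂ) 0 x 1 0
  have hP : P1 - P2 = 0 := by
    apply poly_eq_zero_of_int
    intro n
    have := hA n x
    rw [lam_apply] at this
    simp only [Psi, actV] at this
    rw [Polynomial.eval_sub, ← hP1, ← hP2]
    simp only [zero_mul, zero_add, one_mul, add_zero]
    rw [add_comm (((g 0 1 : ℝ) : ℂ) * n), add_comm (((g 1 1 : ℝ) : ℂ) * n)]
    exact this
  have := congrArg (Polynomial.eval y) hP
  rw [Polynomial.eval_sub, ← hP1, ← hP2] at this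
  rw [lam_apply]
  simp only [Psi, actV]
  simp only [zero_mul, zero_add, one_mul, add_zero] at this
  rw [add_comm (((g 0 1 : ℝ) : ℂ) * y), add_comm (((g 1 1 : ℝ) : ℂ) * y)] at this
  simpa using this

theorem Psi_diag (f : ℍ → ℂ) (z : ℍ) :
    Psi w f z ((z : ℂ), 1) = (w.factorial : ℂ) * prim^[w + 1] f z := by
  have := PsiC_diag w f (z : ℂ) 1
  rw [mul_one, one_pow, mul_one, ofComplex_apply] at this
  exact this

theorem Psi_diag_smul (g : GL (Fin 2) ℝ) (hg : 0 < g.det.val) (f : ℍ → ℂ) (z : ℍ) :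
    Psi w f (g • z) (actV g ((z : ℂ), 1))
      = (w.factorial : ℂ) * (denom g z) ^ w * prim^[w + 1] f (g • z) := by
  have hd : denom g z ≠ 0 := denom_ne_zero g z
  have e1 : ((g 0 0 : ℝ) : ℂ) * (z : ℂ) + ((g 0 1 : ℝ) : ℂ) * 1 = denom g z * ((g • z : ℍ) : ℂ) := by
    rw [coe_smul_of_det_pos hg, mul_div_cancel₀ _ hd]
    simp [num]
  have e2 : ((g 1 0 : ℝ) : ℂ) * (z : ℂ) + ((g 1 1 : ℝ) : ℂ) * 1 = denom g z * 1 := by
    simp [denom]
  simp only [Psi, actV]
  have h := Psi_diag (w := w) f (g • z)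
  simp only [Psi] at h
  rw [e1, e2, PsiC_homog, h]
  ring

theorem slash_neg_apply (g : GL (Fin 2) ℝ) (hg : g.det.val = 1) (F : ℍ → ℂ) (z : ℍ) :
    (F ∣[-(w : ℤ)] g) z = F (g • z) * (denom g z) ^ w := by
  have hpos : 0 < g.det.val := by rw [hg]; exact one_pos
  rw [ModularForm.slash_apply, UpperHalfPlane.σ, if_pos hpos, hg]
  simp

end

section

variable (N : ℕ) [NeZero N]

/-- A holomorphic function of weight `k ≤ 0` for `Γ₀(N)`, bounded at all cusps and vanishing at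
`i∞`, is zero. -/
theorem eq_zero_of_slash_invariant_of_bdd_aux (k : ℤ) (hk : k ≤ 0) (F : ℍ → ℂ)
    (hol : MDifferentiable 𝓘(ℂ) 𝓘(ℂ) F)
    (hinv : ∀ γ ∈ ((CongruenceSubgroup.Gamma0 N : Subgroup SL(2, ℤ)) : Subgroup (GL (Fin 2) ℝ)),
      F ∣[k] γ = F)
    (hbdd : ∀ δ : SL(2, ℤ), IsBoundedAtImInfty (F ∣[k] (mapGL ℝ δ : GL (Fin 2) ℝ)))
    (hzero : IsZeroAtImInfty F) : F = 0 := by
  let G : ModularForm
      ((CongruenceSubgroup.Gamma0 N : Subgroup SL(2, ℤ)) : Subgroup (GL (Fin 2) ℝ)) k :=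
    { toFun := F
      slash_action_eq' := hinv
      holo' := hol
      bdd_at_cusps' := fun {c} hc => by
        rw [OnePoint.isBoundedAt_iff_forall_SL2Z
          ((Subgroup.IsArithmetic.isCusp_iff_isCusp_SL2Z _).mp hc)]
        intro γ _
        exact hbdd γ }
  have hG : ⇑G = F := rfl
  rcases hk.lt_or_eq with hneg | rfl
  · have := ModularForm.isZero_of_neg_weight hneg G
    rw [← hG, this]
    rfl
  · obtain ⟨c, hc⟩ := ModularForm.eq_const_of_weight_zero G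
    rw [hG] at hc
    have h1 : Tendsto F atImInfty (𝓝 c) := by
      rw [hc]
      exact tendsto_const_nhds
    have h0 : c = 0 := tendsto_nhds_unique h1 hzero
    rw [hc, h0]
    rfl

end

section

variable {N : ℕ} [NeZero N] {w : ℕ}

/-- If all periods of `f` vanish then its `(w+1)`-fold primitive has weight `-w`. -/
theorem iterate_prim_slash_eq (f : CF N w)
    (h : ∀ γ ∈ CongruenceSubgroup.Gamma0 N, ∀ v : ℂ × ℂ,
      lam N w (mapGL ℝ γ : GL (Fin 2) ℝ) v f = 0) :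
    ∀ g ∈ ((CongruenceSubgroup.Gamma0 N : Subgroup SL(2, ℤ)) : Subgroup (GL (Fin 2) ℝ)),
      (prim^[w + 1] ⇑f) ∣[-(w : ℤ)] g = prim^[w + 1] ⇑f := by
  rintro g ⟨γ, hγ, rfl⟩
  funext z
  have hdet : ((mapGL ℝ γ : GL (Fin 2) ℝ).det.val : ℝ) = 1 := by simp
  rw [slash_neg_apply _ hdet]
  have h1 := lam_indep hγ ((z : ℂ), 1) f z
  rw [h γ hγ, sub_eq_zero, Psi_diag_smul _ (det_mapGL_pos γ), Psi_diag] at h1
  have hw : (w.factorial : ℂ) ≠ 0 := by exact_mod_cast w.factorial_ne_zero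
  have h2 : (w.factorial : ℂ) * (prim^[w + 1] ⇑f ((mapGL ℝ γ : GL (Fin 2) ℝ) • z)
      * denom (mapGL ℝ γ : GL (Fin 2) ℝ) z ^ w) = (w.factorial : ℂ) * prim^[w + 1] ⇑f z := by
    rw [← h1]; ring
  exact mul_left_cancel₀ hw h2

/-- If `F = prim^[w+1] f` has weight `-w`, it is bounded at every cusp. -/
theorem iterate_prim_bdd (f : CF N w)
    (hinv : ∀ g ∈ ((CongruenceSubgroup.Gamma0 N : Subgroup SL(2, ℤ)) : Subgroup (GL (Fin 2) ℝ)),
      (prim^[w + 1] ⇑f) ∣[-(w : ℤ)] g = prim^[w + 1] ⇑f) (δ : SL(2, ℤ)) :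
    IsBoundedAtImInfty ((prim^[w + 1] ⇑f) ∣[-(w : ℤ)] (mapGL ℝ δ : GL (Fin 2) ℝ)) := by
  obtain ⟨M, hM, hper⟩ := Subgroup.IsArithmetic.exists_nat_mem_strictPeriods_conj
    ((CongruenceSubgroup.Gamma0 N : Subgroup SL(2, ℤ)) : Subgroup (GL (Fin 2) ℝ))
  have hM' : (0 : ℝ) < M := by exact_mod_cast hM
  have h1 := hper δ⁻¹
  rw [map_inv] at h1
  set g : GL (Fin 2) ℝ := mapGL ℝ δ with hg
  have hgdet : (g.det.val : ℝ) = 1 := by simp [hg]
  have hgpos : 0 < (g.det.val : ℝ) := by rw [hgdet]; exact one_pos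
  set φ : ℍ → ℂ := ⇑f ∣[(w : ℤ) + 2] g with hφ
  have hφn : Nice (M : ℝ) φ := nice_of_cuspForm hM' h1 (CuspForm.translate f g)
  have hφc : HasChain (w + 1) φ := hφn.hasChain hM' _
  have hF' : Nice (M : ℝ) (prim^[w + 1] φ) := hφn.iterate hM' _
  let Fs : SlashInvariantForm
      ((CongruenceSubgroup.Gamma0 N : Subgroup SL(2, ℤ)) : Subgroup (GL (Fin 2) ℝ)) (-(w : ℤ)) :=
    { toFun := prim^[w + 1] ⇑f, slash_action_eq' := hinv }
  have hFper : Periodic (((prim^[w + 1] ⇑f) ∣[-(w : ℤ)] g) ∘ ofComplex) (M : ℝ) :=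
    SlashInvariantFormClass.periodic_comp_ofComplex (SlashInvariantForm.translate Fs g) h1
  have key : ∀ z : ℍ, (w.factorial : ℂ) * ((prim^[w + 1] ⇑f) ∣[-(w : ℤ)] g) z
      = (w.factorial : ℂ) * prim^[w + 1] φ z
        + (Psi w f (g • UpperHalfPlane.I) (actV g ((z : ℂ), 1))
          - Psi w φ UpperHalfPlane.I ((z : ℂ), 1)) := by
    intro z
    have h2 := Psi_smul_sub_const w (CF.hasChain f _) hφc g hgpos rfl ((z : ℂ), 1) z
      UpperHalfPlane.I
    rw [Psi_diag_smul _ hgpos, Psi_diag] at h2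
    rw [slash_neg_apply _ hgdet]
    linear_combination h2
  obtain ⟨P1, hP1⟩ := PsiC_poly w f ((g • UpperHalfPlane.I : ℍ) : ℂ) ((g 0 0 : ℝ) : ℂ)
    ((g 0 1 : ℝ) : ℂ) ((g 1 0 : ℝ) : ℂ) ((g 1 1 : ℝ) : ℂ)
  obtain ⟨P2, hP2⟩ := PsiC_poly w φ ((UpperHalfPlane.I : ℍ) : ℂ) 1 0 0 1
  have hP : ∀ z : ℍ, (P1 - P2).eval (z : ℂ)
      = (w.factorial : ℂ) * ((prim^[w + 1] ⇑f) ∣[-(w : ℤ)] g) z
        - (w.factorial : ℂ) * prim^[w + 1] φ z := by
    intro z
    rw [key z, Polynomial.eval_sub, ← hP1, ← hP2]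
    simp [Psi, actV]
  have hconst := poly_const_of_periodic (P := P1 - P2) hM' (by
    intro z
    have hz' : 0 < ((z : ℂ) + ((M : ℝ) : ℂ)).im := by simpa using z.im_pos
    have e : ((z : ℂ) + ((M : ℝ) : ℂ)) = ((⟨(z : ℂ) + ((M : ℝ) : ℂ), hz'⟩ : ℍ) : ℂ) := rfl
    rw [e, hP, hP]
    have p1 := hFper (z : ℂ)
    have p2 := hF'.per (z : ℂ)
    simp only [comp_apply, ofComplex_apply] at p1 p2
    rw [ofComplex_apply_of_im_pos hz'] at p1 p2
    rw [p1, p2])
  have hw : (w.factorial : ℂ) ≠ 0 := by exact_mod_cast w.factorial_ne_zero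
  have hfun : (prim^[w + 1] ⇑f) ∣[-(w : ℤ)] g
      = prim^[w + 1] φ + fun _ => (P1 - P2).eval 0 / (w.factorial : ℂ) := by
    funext z
    have h3 := hP z
    rw [hconst] at h3
    rw [Pi.add_apply, h3]
    field_simp
    ring
  rw [hfun]
  exact hF'.zero.isBoundedAtImInfty.add (Filter.const_boundedAtFilter _ _)

/-- **Separation**: a cusp form killed by the whole period lattice is zero. -/
theorem separation (f : CF N w) (h : ∀ l ∈ Lam N w, l f = 0) : f = 0 := by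
  have h0 : ∀ γ ∈ CongruenceSubgroup.Gamma0 N, ∀ v : ℂ × ℂ,
      lam N w (mapGL ℝ γ : GL (Fin 2) ℝ) v f = 0 :=
    fun γ hγ => lam_eq_zero_of_int _ f fun m n => h _ (lam_mem_Lam hγ m n)
  have hinv := iterate_prim_slash_eq f h0
  have hbdd := iterate_prim_bdd f hinv
  have hn := (CF.nice f).iterate one_pos (w + 1)
  have hF : prim^[w + 1] ⇑f = 0 :=
    eq_zero_of_slash_invariant_of_bdd_aux N (-(w : ℤ)) (by omega) _ hn.hol hinv hbdd hn.zero
  have := eq_zero_of_iterate_prim_eq_zero (w + 1) (CF.hasChain f _) hF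
  exact DFunLike.coe_injective this

end

end Fermat.Agent.H4
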